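import Mathlib.RingTheory.Polynomial.Vieta
import Mathlib.Algebra.Polynomial.Derivative

/-!
# Vieta / Lagrange identities for a finite family in a commutative ring

Pure algebra used for the symmetric functions of translates of modular forms (S23, part P2).
For a finite index type `ι`, `a b : ι → R` and a distinguished index `i₀`:

* `monic_eval`   : `∑ m ≤ n, (-1)^m e_m(a) (a i₀)^(n-m) = 0`                     (`n = card ι`)
* `lagrange_eval`: `a i₀ * ∏_{i ≠ i₀} (b i₀ - b i) = ∑ m < n, (-1)^m (∑ i, a i e_m(b | ≠ i)) (b i₀)^(n-1-m)`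
* `disc_eval`    : `∏_{i ≠ i₀} (b i₀ - b i) = ∑ m < n, (-1)^m (n-m) e_m(b) (b i₀)^(n-1-m)`
-/

set_option autoImplicit false

namespace Fermat.Agent.S23.H16

open Finset Polynomial

variable {R : Type*} [CommRing R] {ι : Type*}

/-- Vieta for a finset: `∏_{i ∈ s} (X - C (b i)) = ∑_{m ≤ #s} (-1)^m C (e_m(b|s)) X^(#s - m)`. -/
theorem prod_X_sub_C_eq_sum_esymm_finset (s : Finset ι) (b : ι → R) :
    ∏ i ∈ s, (X - C (b i)) =
      ∑ m ∈ range (#s + 1),
        (-1) ^ m * (C (∑ t ∈ s.powersetCard m, ∏ i ∈ t, b i) * X ^ (#s - m)) := by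
  have h := Multiset.prod_X_sub_X_eq_sum_esymm (s.val.map b)
  rw [Multiset.map_map, Multiset.card_map] at h
  simp only [Finset.esymm_map_val] at h
  exact h

/-- Evaluated form of Vieta. -/
theorem prod_sub_eq_sum_esymm_finset (s : Finset ι) (b : ι → R) (x : R) :
    ∏ i ∈ s, (x - b i) =
      ∑ m ∈ range (#s + 1),
        (-1) ^ m * ((∑ t ∈ s.powersetCard m, ∏ i ∈ t, b i) * x ^ (#s - m)) := by
  have h := congrArg (Polynomial.eval x) (prod_X_sub_C_eq_sum_esymm_finset s b)
  simpa [Polynomial.eval_prod, Polynomial.eval_finsetSum] using h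

variable [DecidableEq ι] [Fintype ι]

omit [DecidableEq ι] in
/-- The monic relation: every `a i₀` is a root of `∏ i, (X - a i)`. -/
theorem monic_eval (a : ι → R) (i₀ : ι) :
    ∑ m ∈ range (Fintype.card ι + 1),
      (-1) ^ m * (∑ t ∈ (univ : Finset ι).powersetCard m, ∏ i ∈ t, a i) *
        a i₀ ^ (Fintype.card ι - m) = 0 := by
  have h := prod_sub_eq_sum_esymm_finset (univ : Finset ι) a (a i₀)
  rw [Finset.prod_eq_zero (mem_univ i₀) (sub_self _), card_univ] at h
  rw [h]
  exact Finset.sum_congr rfl fun m _ => by ring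

/-- Lagrange interpolation numerators, evaluated at a node. -/
theorem lagrange_eval (a b : ι → R) (i₀ : ι) :
    a i₀ * ∏ i ∈ (univ : Finset ι).erase i₀, (b i₀ - b i) =
      ∑ m ∈ range (Fintype.card ι),
        (-1) ^ m *
          (∑ i, a i * ∑ t ∈ ((univ : Finset ι).erase i).powersetCard m, ∏ j ∈ t, b j) *
            b i₀ ^ (Fintype.card ι - 1 - m) := by
  have hcard : ∀ i : ι, #((univ : Finset ι).erase i) + 1 = Fintype.card ι := fun i => by
    rw [card_erase_of_mem (mem_univ i), card_univ]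
    exact Nat.sub_add_cancel (Fintype.card_pos_iff.mpr ⟨i⟩)
  have hcard' : ∀ i : ι, #((univ : Finset ι).erase i) = Fintype.card ι - 1 := fun i => by
    rw [card_erase_of_mem (mem_univ i), card_univ]
  have key : ∀ i : ι, a i * ∏ j ∈ (univ : Finset ι).erase i, (b i₀ - b j) =
      ∑ m ∈ range (Fintype.card ι),
        (-1) ^ m * (a i * ∑ t ∈ ((univ : Finset ι).erase i).powersetCard m, ∏ j ∈ t, b j) *
          b i₀ ^ (Fintype.card ι - 1 - m) := by
    intro i
    rw [prod_sub_eq_sum_esymm_finset, hcard, hcard', Finset.mul_sum]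
    exact Finset.sum_congr rfl fun m _ => by ring
  have hsum : ∑ i, a i * ∏ j ∈ (univ : Finset ι).erase i, (b i₀ - b j) =
      a i₀ * ∏ i ∈ (univ : Finset ι).erase i₀, (b i₀ - b i) := by
    rw [Finset.sum_eq_single i₀]
    · intro i _ hi
      rw [Finset.prod_eq_zero (i := i₀) (mem_erase.mpr ⟨fun h => hi h.symm, mem_univ _⟩)
        (sub_self _), mul_zero]
    · intro h
      exact absurd (mem_univ _) h
  rw [← hsum, Finset.sum_congr rfl fun i _ => key i, Finset.sum_comm]
  refine Finset.sum_congr rfl fun m _ => ?_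
  rw [Finset.mul_sum, Finset.sum_mul]

/-- Double counting: `∑ i, e_m(b | ≠ i) = (n - m) e_m(b)`. -/
theorem sum_esymm_erase (b : ι → R) (m : ℕ) :
    ∑ i, ∑ t ∈ ((univ : Finset ι).erase i).powersetCard m, ∏ j ∈ t, b j =
      ((Fintype.card ι - m : ℕ) : R) * ∑ t ∈ (univ : Finset ι).powersetCard m, ∏ j ∈ t, b j := by
  have h1 : ∀ i : ι, ∑ t ∈ ((univ : Finset ι).erase i).powersetCard m, ∏ j ∈ t, b j =
      ∑ t ∈ (univ : Finset ι).powersetCard m, if i ∈ t then 0 else ∏ j ∈ t, b j := by
    intro i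
    rw [← Finset.sum_filter_of_ne (p := fun t => i ∉ t)
      (s := (univ : Finset ι).powersetCard m) (f := fun t => if i ∈ t then 0 else ∏ j ∈ t, b j)]
    · rw [Finset.sum_filter]
      have : ((univ : Finset ι).erase i).powersetCard m =
          ((univ : Finset ι).powersetCard m).filter (fun t => i ∉ t) := by
        ext t
        simp only [mem_powersetCard, mem_filter, subset_univ, true_and]
        constructor
        · rintro ⟨h1, h2⟩
          exact ⟨h2, fun hi => (mem_erase.mp (h1 hi)).1 rfl⟩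
        · rintro ⟨h2, hi⟩
          exact ⟨fun j hj => mem_erase.mpr ⟨fun hji => hi (hji ▸ hj), mem_univ _⟩, h2⟩
      rw [this, Finset.sum_filter]
      refine Finset.sum_congr rfl fun t _ => ?_
      by_cases hi : i ∈ t <;> simp [hi]
    · intro t _ ht hi
      exact ht (if_pos hi)
  rw [Finset.sum_congr rfl fun i _ => h1 i, Finset.sum_comm, Finset.mul_sum]
  refine Finset.sum_congr rfl fun t ht => ?_
  rw [mem_powersetCard] at ht
  have : ∑ i : ι, (if i ∈ t then 0 else ∏ j ∈ t, b j) =
      ∑ i ∈ (univ : Finset ι) \ t, ∏ j ∈ t, b j := by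
    rw [← Finset.sum_filter_of_ne (p := fun i => i ∉ t)
      (s := (univ : Finset ι)) (f := fun i => if i ∈ t then 0 else ∏ j ∈ t, b j)]
    · rw [show (univ : Finset ι) \ t = (univ : Finset ι).filter (fun i => i ∉ t) by
        ext i; simp]
      exact Finset.sum_congr rfl fun i hi => if_neg (mem_filter.mp hi).2
    · intro i _ hne hi
      exact hne (if_pos hi)
  rw [this, Finset.sum_const, card_sdiff_of_subset (subset_univ t), card_univ, ht.2, nsmul_eq_mul]

/-- The "discriminant factor" `∏_{i ≠ i₀} (b i₀ - b i)` is the derivative of `∏ (X - b i)` at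
`b i₀`, expanded in the elementary symmetric functions. -/
theorem disc_eval (b : ι → R) (i₀ : ι) :
    ∏ i ∈ (univ : Finset ι).erase i₀, (b i₀ - b i) =
      ∑ m ∈ range (Fintype.card ι),
        (-1) ^ m * ((Fintype.card ι - m : ℕ) : R) *
          (∑ t ∈ (univ : Finset ι).powersetCard m, ∏ j ∈ t, b j) *
            b i₀ ^ (Fintype.card ι - 1 - m) := by
  have h := lagrange_eval (fun _ => (1 : R)) b i₀
  simp only [one_mul] at h
  rw [h]
  refine Finset.sum_congr rfl fun m _ => ?_
  rw [sum_esymm_erase]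
  ring

end Fermat.Agent.S23.H16
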