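import Mathlib.NumberTheory.ModularForms.NormTrace
import Fermat.Agent.S23.H16.SymmAlgebra

/-!
# Symmetric functions of the translates of a modular form (S23, part P2)

For subgroups `𝒢, ℋ` of `GL(2, ℝ)` with `𝒢 ⊓ ℋ` of finite index in `ℋ` (and `ℋ` of determinant
`±1`), and forms `f` (weight `k`), `g` (weight `k'`) on `𝒢`, we build the following forms on `ℋ`
out of the translates `f_q = quotientFunc f q`, `q ∈ ℋ ⧸ 𝒢 ⊓ ℋ`:

* `esymmForm f m : ModularForm ℋ (k * m)`: the `m`-th elementary symmetric function of the `f_q`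
  (a cusp form `esymmCuspForm f hm` when `f` is a cusp form and `m ≠ 0`);
* `lagrangeForm f g m : ModularForm ℋ (k + k' * m)`: `∑_q f_q * e_m(g_{q'} : q' ≠ q)`
  (a cusp form `lagrangeCuspForm f g m` when `f` is a cusp form);

and prove the pointwise identities

* `monic_relation`    : `∑_{m ≤ μ} (-1)^m e_m(f) f^(μ-m) = 0`,
* `lagrange_relation` : `f * D_g = ∑_{m < μ} (-1)^m h_m(f,g) g^(μ-1-m)`,
* `disc_relation`     : `D_g = ∑_{m < μ} (-1)^m (μ-m) e_m(g) g^(μ-1-m)`,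

where `μ = Nat.card (ℋ ⧸ 𝒢 ⊓ ℋ)` and `D_g = discFun g = ∏_{q ≠ 1} (g - g_q)`, which is nonzero as
soon as no `g ∣ h`, `h ∈ ℋ \ 𝒢`, equals `g` (`discFun_ne_zero`).
-/

set_option autoImplicit false

namespace Fermat.Agent.S23.H16

open UpperHalfPlane ModularForm SlashInvariantForm Filter OnePoint Finset
open scoped ModularForm MatrixGroups Manifold Topology

noncomputable section

/-! ### Boundedness / vanishing at all cusps, as predicates on functions -/

section Predicates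

variable {ℋ : Subgroup (GL (Fin 2) ℝ)}

/-- `Φ` is bounded at every cusp of `ℋ`, in weight `w`. -/
def BddAtCusps (ℋ : Subgroup (GL (Fin 2) ℝ)) (Φ : ℍ → ℂ) (w : ℤ) : Prop :=
  ∀ ⦃c : OnePoint ℝ⦄, IsCusp c ℋ → c.IsBoundedAt Φ w

/-- `Φ` vanishes at every cusp of `ℋ`, in weight `w`. -/
def ZeroAtCusps (ℋ : Subgroup (GL (Fin 2) ℝ)) (Φ : ℍ → ℂ) (w : ℤ) : Prop :=
  ∀ ⦃c : OnePoint ℝ⦄, IsCusp c ℋ → c.IsZeroAt Φ w

theorem ZeroAtCusps.bdd {Φ : ℍ → ℂ} {w : ℤ} (h : ZeroAtCusps ℋ Φ w) : BddAtCusps ℋ Φ w :=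
  fun _ hc γ hγ => (h hc γ hγ).isBoundedAtImInfty

theorem BddAtCusps.add {Φ Ψ : ℍ → ℂ} {w : ℤ} (hΦ : BddAtCusps ℋ Φ w) (hΨ : BddAtCusps ℋ Ψ w) :
    BddAtCusps ℋ (Φ + Ψ) w :=
  fun _ hc => (hΦ hc).add (hΨ hc)

theorem ZeroAtCusps.add {Φ Ψ : ℍ → ℂ} {w : ℤ} (hΦ : ZeroAtCusps ℋ Φ w)
    (hΨ : ZeroAtCusps ℋ Ψ w) : ZeroAtCusps ℋ (Φ + Ψ) w :=
  fun _ hc => (hΦ hc).add (hΨ hc)

theorem bddAtCusps_zero (w : ℤ) : BddAtCusps ℋ (0 : ℍ → ℂ) w := by
  intro c _ γ _
  rw [SlashAction.zero_slash]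
  exact zero_form_isBoundedAtImInfty

theorem zeroAtCusps_zero (w : ℤ) : ZeroAtCusps ℋ (0 : ℍ → ℂ) w := by
  intro c _ γ _
  rw [SlashAction.zero_slash]
  exact zero_zeroAtFilter _

theorem BddAtCusps.sum {ι : Type*} (s : Finset ι) {Φ : ι → ℍ → ℂ} {w : ℤ}
    (h : ∀ i ∈ s, BddAtCusps ℋ (Φ i) w) : BddAtCusps ℋ (∑ i ∈ s, Φ i) w := by
  classical
  induction s using Finset.induction_on with
  | empty => simpa using bddAtCusps_zero (ℋ := ℋ) w
  | insert i t hi IH =>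
    rw [Finset.sum_insert hi]
    exact (h i (mem_insert_self i t)).add (IH fun j hj => h j (mem_insert_of_mem hj))

theorem ZeroAtCusps.sum {ι : Type*} (s : Finset ι) {Φ : ι → ℍ → ℂ} {w : ℤ}
    (h : ∀ i ∈ s, ZeroAtCusps ℋ (Φ i) w) : ZeroAtCusps ℋ (∑ i ∈ s, Φ i) w := by
  classical
  induction s using Finset.induction_on with
  | empty => simpa using zeroAtCusps_zero (ℋ := ℋ) w
  | insert i t hi IH =>
    rw [Finset.sum_insert hi]
    exact (h i (mem_insert_self i t)).add (IH fun j hj => h j (mem_insert_of_mem hj))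

theorem BddAtCusps.mul {Φ Ψ : ℍ → ℂ} {w w' : ℤ} (hΦ : BddAtCusps ℋ Φ w)
    (hΨ : BddAtCusps ℋ Ψ w') : BddAtCusps ℋ (Φ * Ψ) (w + w') := by
  intro c hc γ hγ
  rw [ModularForm.mul_slash]
  exact Asymptotics.IsBigO.const_smul_left ((hΦ hc γ hγ).mul (hΨ hc γ hγ)) _

theorem ZeroAtCusps.mul_bdd {Φ Ψ : ℍ → ℂ} {w w' : ℤ} (hΦ : ZeroAtCusps ℋ Φ w)
    (hΨ : BddAtCusps ℋ Ψ w') : ZeroAtCusps ℋ (Φ * Ψ) (w + w') := by
  intro c hc γ hγ
  rw [ModularForm.mul_slash]
  exact ZeroAtFilter.smul _ ((hΦ hc γ hγ).mul_boundedAtFilter (hΨ hc γ hγ))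

theorem bddAtCusps_one : BddAtCusps ℋ (1 : ℍ → ℂ) 0 := by
  intro c _ γ _
  have h : (1 : ℍ → ℂ) ∣[(0 : ℤ)] γ = fun _ => ((|γ.det.val| : ℝ) : ℂ)⁻¹ := by
    ext τ
    simp [ModularForm.slash_apply]
  rw [h]
  exact const_boundedAtFilter _ _

theorem BddAtCusps.prod {ι : Type*} (s : Finset ι) {Φ : ι → ℍ → ℂ} {w : ℤ}
    (h : ∀ i ∈ s, BddAtCusps ℋ (Φ i) w) : BddAtCusps ℋ (∏ i ∈ s, Φ i) (w * #s) := by
  classical
  induction s using Finset.induction_on with
  | empty => simpa using bddAtCusps_one (ℋ := ℋ)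
  | insert i t hi IH =>
    rw [Finset.prod_insert hi, card_insert_of_notMem hi,
      show w * ((#t + 1 : ℕ) : ℤ) = w + w * #t by push_cast; ring]
    exact (h i (mem_insert_self i t)).mul (IH fun j hj => h j (mem_insert_of_mem hj))

theorem ZeroAtCusps.prod {ι : Type*} (s : Finset ι) (hs : s.Nonempty) {Φ : ι → ℍ → ℂ} {w : ℤ}
    (h : ∀ i ∈ s, ZeroAtCusps ℋ (Φ i) w) : ZeroAtCusps ℋ (∏ i ∈ s, Φ i) (w * #s) := by
  classical
  obtain ⟨i, hi⟩ := hs
  rw [← Finset.mul_prod_erase s Φ hi,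
    show w * (#s : ℤ) = w + w * #(s.erase i) by
      rw [card_erase_of_mem hi]
      have : 1 ≤ #s := card_pos.mpr ⟨i, hi⟩
      push_cast [Nat.cast_sub this]; ring]
  exact (h i hi).mul_bdd (BddAtCusps.prod _ fun j hj => (h j (mem_of_mem_erase hj)).bdd)

end Predicates

/-! ### Translates -/

variable {𝒢 ℋ : Subgroup (GL (Fin 2) ℝ)} {F : Type*} [FunLike F ℍ ℂ] {k : ℤ}
  {F' : Type*} [FunLike F' ℍ ℂ] {k' : ℤ}

local notation "𝒬" => ℋ ⧸ (𝒢.subgroupOf ℋ)

theorem quotientFunc_one [SlashInvariantFormClass F 𝒢 k] (f : F) :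
    quotientFunc f ((1 : ℋ) : 𝒬) = ⇑f := by
  change (⇑f) ∣[k] ((1 : ℋ) : GL (Fin 2) ℝ)⁻¹ = ⇑f
  simp

theorem quotientFunc_coe [SlashInvariantFormClass F 𝒢 k] (f : F) (h : ℋ) :
    quotientFunc f (h : 𝒬) = (⇑f) ∣[k] (h : GL (Fin 2) ℝ)⁻¹ := rfl

theorem mdiff_quotientFunc [ModularFormClass F 𝒢 k] (f : F) (q : 𝒬) :
    MDiff (quotientFunc f q) := by
  induction q using Quotient.inductionOn with
  | h r => exact (ModularForm.translate f (r : GL (Fin 2) ℝ)⁻¹).holo'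

theorem bddAtCusps_quotientFunc [𝒢.IsFiniteRelIndex ℋ] [ModularFormClass F 𝒢 k] (f : F)
    (q : 𝒬) : BddAtCusps ℋ (quotientFunc f q) k := by
  induction q using Quotient.inductionOn with
  | h r =>
    obtain ⟨r, hr⟩ := r
    intro c hc γ hγ
    refine (ModularForm.translate f r⁻¹).bdd_at_cusps' ?_ γ hγ
    simpa using hc.of_isFiniteRelIndex_conj hr

theorem zeroAtCusps_quotientFunc [𝒢.IsFiniteRelIndex ℋ] [CuspFormClass F 𝒢 k] (f : F)
    (q : 𝒬) : ZeroAtCusps ℋ (quotientFunc f q) k := by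
  induction q using Quotient.inductionOn with
  | h r =>
    obtain ⟨r, hr⟩ := r
    intro c hc γ hγ
    refine (CuspForm.translate f r⁻¹).zero_at_cusps' ?_ γ hγ
    simpa using hc.of_isFiniteRelIndex_conj hr

/-- The permutation of the cosets induced by (the inverse of) an element of `ℋ`. -/
def cosetPerm (h : ℋ) : 𝒬 ≃ 𝒬 := MulAction.toPerm (h⁻¹ : ℋ)

theorem quotientFunc_slash [SlashInvariantFormClass F 𝒢 k] (f : F) {h : GL (Fin 2) ℝ}
    (hh : h ∈ ℋ) (q : 𝒬) :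
    quotientFunc f q ∣[k] h = quotientFunc f (cosetPerm (𝒢 := 𝒢) ⟨h, hh⟩ q) :=
  quotientFunc_smul f hh q

/-- The product of the translates of `f` indexed by a finset of cosets. -/
def translateProd [SlashInvariantFormClass F 𝒢 k] (f : F) (s : Finset 𝒬) : ℍ → ℂ :=
  ∏ q ∈ s, quotientFunc f q

theorem translateProd_apply [SlashInvariantFormClass F 𝒢 k] (f : F) (s : Finset 𝒬) (τ : ℍ) :
    translateProd f s τ = ∏ q ∈ s, quotientFunc f q τ := by
  simp [translateProd, Finset.prod_apply]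

theorem translateProd_slash [ℋ.HasDetPlusMinusOne] [SlashInvariantFormClass F 𝒢 k] (f : F)
    {h : GL (Fin 2) ℝ} (hh : h ∈ ℋ) (s : Finset 𝒬) {m : ℕ} (hs : #s = m) :
    translateProd f s ∣[k * m] h =
      translateProd f (s.map (cosetPerm (𝒢 := 𝒢) ⟨h, hh⟩).toEmbedding) := by
  subst hs
  rw [translateProd, ModularForm.prod_slash, Subgroup.HasDetPlusMinusOne.abs_det hh, one_zpow,
    one_smul, translateProd, Finset.prod_map]
  exact Finset.prod_congr rfl fun q _ => quotientFunc_slash f hh q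

theorem mdiff_translateProd [ModularFormClass F 𝒢 k] (f : F) (s : Finset 𝒬) :
    MDiff (translateProd f s) :=
  MDifferentiable.prod fun q _ => mdiff_quotientFunc f q

theorem bddAtCusps_translateProd [𝒢.IsFiniteRelIndex ℋ] [ModularFormClass F 𝒢 k] (f : F)
    (s : Finset 𝒬) {m : ℕ} (hs : #s = m) : BddAtCusps ℋ (translateProd f s) (k * m) := by
  subst hs
  exact BddAtCusps.prod s fun q _ => bddAtCusps_quotientFunc f q

theorem zeroAtCusps_translateProd [𝒢.IsFiniteRelIndex ℋ] [CuspFormClass F 𝒢 k] (f : F)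
    (s : Finset 𝒬) {m : ℕ} (hs : #s = m) (hm : m ≠ 0) :
    ZeroAtCusps ℋ (translateProd f s) (k * m) := by
  subst hs
  exact ZeroAtCusps.prod s (card_ne_zero.mp hm) fun q _ => zeroAtCusps_quotientFunc f q

/-- The fintype structure on the coset space used for all the sums below. -/
local instance quotFintype [𝒢.IsFiniteRelIndex ℋ] : Fintype 𝒬 := Fintype.ofFinite _

/-! ### Elementary symmetric functions of the translates -/

section Esymm

variable [𝒢.IsFiniteRelIndex ℋ]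

variable (ℋ)

open Classical in
/-- The `m`-th elementary symmetric function of the translates of `f`. -/
def esymmFun [SlashInvariantFormClass F 𝒢 k] (f : F) (m : ℕ) : ℍ → ℂ :=
  ∑ s ∈ (univ : Finset 𝒬).powersetCard m, translateProd f s

theorem esymmFun_apply [SlashInvariantFormClass F 𝒢 k] (f : F) (m : ℕ) (τ : ℍ) :
    esymmFun ℋ f m τ =
      ∑ s ∈ (univ : Finset 𝒬).powersetCard m, ∏ q ∈ s, quotientFunc f q τ := by
  simp [esymmFun, Finset.sum_apply, translateProd_apply]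

theorem esymmFun_zero [SlashInvariantFormClass F 𝒢 k] (f : F) :
    esymmFun ℋ f 0 = 1 := by
  simp [esymmFun, translateProd]

theorem esymmFun_slash [ℋ.HasDetPlusMinusOne] [SlashInvariantFormClass F 𝒢 k] (f : F) (m : ℕ)
    {h : GL (Fin 2) ℝ} (hh : h ∈ ℋ) : esymmFun ℋ f m ∣[k * m] h = esymmFun ℋ f m := by
  rw [esymmFun, SlashAction.sum_slash]
  rw [Finset.sum_congr rfl fun s hs =>
    translateProd_slash f hh s (mem_powersetCard.mp hs).2]
  refine Finset.sum_equiv (Equiv.finsetCongr (cosetPerm (𝒢 := 𝒢) ⟨h, hh⟩)) ?_ ?_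
  · intro s
    simp [mem_powersetCard]
  · intro s _
    rfl

theorem mdiff_esymmFun [ModularFormClass F 𝒢 k] (f : F) (m : ℕ) :
    MDiff (esymmFun ℋ f m) :=
  MDifferentiable.sum fun s _ => mdiff_translateProd f s

theorem bddAtCusps_esymmFun [ModularFormClass F 𝒢 k] (f : F) (m : ℕ) :
    BddAtCusps ℋ (esymmFun ℋ f m) (k * m) :=
  BddAtCusps.sum _ fun s hs => bddAtCusps_translateProd f s (mem_powersetCard.mp hs).2

theorem zeroAtCusps_esymmFun [CuspFormClass F 𝒢 k] (f : F) {m : ℕ} (hm : m ≠ 0) :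
    ZeroAtCusps ℋ (esymmFun ℋ f m) (k * m) :=
  ZeroAtCusps.sum _ fun s hs => zeroAtCusps_translateProd f s (mem_powersetCard.mp hs).2 hm

/-- The `m`-th elementary symmetric function of the translates of a modular form `f` on `𝒢`,
as a modular form of weight `k * m` on `ℋ`. -/
def esymmForm [ℋ.HasDetPlusMinusOne] [ModularFormClass F 𝒢 k] (f : F) (m : ℕ) :
    ModularForm ℋ (k * m) where
  toFun := esymmFun ℋ f m
  slash_action_eq' _ hh := esymmFun_slash ℋ f m hh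
  holo' := mdiff_esymmFun ℋ f m
  bdd_at_cusps' hc := bddAtCusps_esymmFun ℋ f m hc

@[simp] theorem coe_esymmForm [ℋ.HasDetPlusMinusOne] [ModularFormClass F 𝒢 k] (f : F) (m : ℕ) :
    ⇑(esymmForm ℋ f m) = esymmFun ℋ f m := rfl

/-- The `m`-th elementary symmetric function (`m ≠ 0`) of the translates of a cusp form `f` on
`𝒢`, as a cusp form of weight `k * m` on `ℋ`. -/
def esymmCuspForm [ℋ.HasDetPlusMinusOne] [CuspFormClass F 𝒢 k] (f : F) {m : ℕ} (hm : m ≠ 0) :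
    CuspForm ℋ (k * m) where
  toFun := esymmFun ℋ f m
  slash_action_eq' _ hh := esymmFun_slash ℋ f m hh
  holo' := mdiff_esymmFun ℋ f m
  zero_at_cusps' hc := zeroAtCusps_esymmFun ℋ f hm hc

@[simp] theorem coe_esymmCuspForm [ℋ.HasDetPlusMinusOne] [CuspFormClass F 𝒢 k] (f : F) {m : ℕ}
    (hm : m ≠ 0) : ⇑(esymmCuspForm ℋ f hm) = esymmFun ℋ f m := rfl

/-- **Monic relation**: `f` is a root of `∏_q (X - f_q) = ∑_m (-1)^m e_m(f) X^(μ-m)`. -/
theorem monic_relation [SlashInvariantFormClass F 𝒢 k] (f : F) (τ : ℍ) :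
    ∑ m ∈ range (Nat.card 𝒬 + 1),
      (-1) ^ m * esymmFun ℋ f m τ * f τ ^ (Nat.card 𝒬 - m) = 0 := by
  classical
  have h := monic_eval (fun q : 𝒬 => quotientFunc f q τ) ((1 : ℋ) : 𝒬)
  rw [quotientFunc_one] at h
  rw [Nat.card_eq_fintype_card]
  simp only [esymmFun_apply]
  convert h using 2

/-- All translates are roots of the same monic polynomial. -/
theorem monic_relation_quotientFunc [SlashInvariantFormClass F 𝒢 k] (f : F) (q : 𝒬) (τ : ℍ) :
    ∑ m ∈ range (Nat.card 𝒬 + 1),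
      (-1) ^ m * esymmFun ℋ f m τ * quotientFunc f q τ ^ (Nat.card 𝒬 - m) = 0 := by
  classical
  have h := monic_eval (fun q : 𝒬 => quotientFunc f q τ) q
  rw [Nat.card_eq_fintype_card]
  simp only [esymmFun_apply]
  convert h using 2

end Esymm

/-! ### Lagrange numerators and the discriminant factor -/

section Lagrange

variable [𝒢.IsFiniteRelIndex ℋ]

variable (ℋ)

open Classical in
/-- The Lagrange numerator `∑_q f_q * e_m(g_{q'} : q' ≠ q)`. -/
def lagrangeFun [SlashInvariantFormClass F 𝒢 k] [SlashInvariantFormClass F' 𝒢 k'] (f : F)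
    (g : F') (m : ℕ) : ℍ → ℂ :=
  ∑ q : 𝒬, quotientFunc f q * ∑ s ∈ ((univ : Finset 𝒬).erase q).powersetCard m, translateProd g s

open Classical in
theorem lagrangeFun_apply [SlashInvariantFormClass F 𝒢 k] [SlashInvariantFormClass F' 𝒢 k']
    (f : F) (g : F') (m : ℕ) (τ : ℍ) :
    lagrangeFun ℋ f g m τ =
      ∑ q : 𝒬, quotientFunc f q τ *
        ∑ s ∈ ((univ : Finset 𝒬).erase q).powersetCard m, ∏ q' ∈ s, quotientFunc g q' τ := by
  simp [lagrangeFun, Finset.sum_apply, translateProd_apply]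

theorem lagrangeFun_slash [ℋ.HasDetPlusMinusOne] [SlashInvariantFormClass F 𝒢 k]
    [SlashInvariantFormClass F' 𝒢 k'] (f : F) (g : F') (m : ℕ) {h : GL (Fin 2) ℝ} (hh : h ∈ ℋ) :
    lagrangeFun ℋ f g m ∣[k + k' * m] h = lagrangeFun ℋ f g m := by
  classical
  rw [lagrangeFun, SlashAction.sum_slash]
  have hterm : ∀ q : 𝒬,
      (quotientFunc f q *
          ∑ s ∈ ((univ : Finset 𝒬).erase q).powersetCard m, translateProd g s) ∣[k + k' * m] h =
        quotientFunc f (cosetPerm (𝒢 := 𝒢) ⟨h, hh⟩ q) *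
          ∑ s ∈ ((univ : Finset 𝒬).erase (cosetPerm (𝒢 := 𝒢) ⟨h, hh⟩ q)).powersetCard m,
            translateProd g s := by
    intro q
    rw [ModularForm.mul_slash, Subgroup.HasDetPlusMinusOne.abs_det hh, one_smul,
      quotientFunc_slash f hh, SlashAction.sum_slash]
    congr 1
    rw [Finset.sum_congr rfl fun s hs =>
      translateProd_slash g hh s (mem_powersetCard.mp hs).2]
    refine Finset.sum_equiv (Equiv.finsetCongr (cosetPerm (𝒢 := 𝒢) ⟨h, hh⟩)) ?_ ?_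
    · intro s
      simp [mem_powersetCard, subset_erase]
    · intro s _
      rfl
  rw [Finset.sum_congr rfl fun q _ => hterm q]
  exact Fintype.sum_equiv (cosetPerm (𝒢 := 𝒢) ⟨h, hh⟩) _ _ fun q => rfl

theorem mdiff_lagrangeFun [ModularFormClass F 𝒢 k] [ModularFormClass F' 𝒢 k'] (f : F)
    (g : F') (m : ℕ) : MDiff (lagrangeFun ℋ f g m) :=
  MDifferentiable.sum fun q _ => (mdiff_quotientFunc f q).mul
    (MDifferentiable.sum fun s _ => mdiff_translateProd g s)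

theorem bddAtCusps_lagrangeFun [ModularFormClass F 𝒢 k] [ModularFormClass F' 𝒢 k'] (f : F)
    (g : F') (m : ℕ) : BddAtCusps ℋ (lagrangeFun ℋ f g m) (k + k' * m) :=
  BddAtCusps.sum _ fun q _ => (bddAtCusps_quotientFunc f q).mul
    (BddAtCusps.sum _ fun s hs => bddAtCusps_translateProd g s (mem_powersetCard.mp hs).2)

theorem zeroAtCusps_lagrangeFun [CuspFormClass F 𝒢 k] [ModularFormClass F' 𝒢 k'] (f : F)
    (g : F') (m : ℕ) : ZeroAtCusps ℋ (lagrangeFun ℋ f g m) (k + k' * m) :=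
  ZeroAtCusps.sum _ fun q _ => (zeroAtCusps_quotientFunc f q).mul_bdd
    (BddAtCusps.sum _ fun s hs => bddAtCusps_translateProd g s (mem_powersetCard.mp hs).2)

/-- The Lagrange numerator `∑_q f_q * e_m(g_{q'} : q' ≠ q)` as a modular form of weight
`k + k' * m` on `ℋ`. -/
def lagrangeForm [ℋ.HasDetPlusMinusOne] [ModularFormClass F 𝒢 k] [ModularFormClass F' 𝒢 k']
    (f : F) (g : F') (m : ℕ) : ModularForm ℋ (k + k' * m) where
  toFun := lagrangeFun ℋ f g m
  slash_action_eq' _ hh := lagrangeFun_slash ℋ f g m hh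
  holo' := mdiff_lagrangeFun ℋ f g m
  bdd_at_cusps' hc := bddAtCusps_lagrangeFun ℋ f g m hc

@[simp] theorem coe_lagrangeForm [ℋ.HasDetPlusMinusOne] [ModularFormClass F 𝒢 k]
    [ModularFormClass F' 𝒢 k'] (f : F) (g : F') (m : ℕ) :
    ⇑(lagrangeForm ℋ f g m) = lagrangeFun ℋ f g m := rfl

/-- The Lagrange numerator as a cusp form on `ℋ`, when `f` is a cusp form. -/
def lagrangeCuspForm [ℋ.HasDetPlusMinusOne] [CuspFormClass F 𝒢 k] [ModularFormClass F' 𝒢 k']
    (f : F) (g : F') (m : ℕ) : CuspForm ℋ (k + k' * m) where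
  toFun := lagrangeFun ℋ f g m
  slash_action_eq' _ hh := lagrangeFun_slash ℋ f g m hh
  holo' := mdiff_lagrangeFun ℋ f g m
  zero_at_cusps' hc := zeroAtCusps_lagrangeFun ℋ f g m hc

@[simp] theorem coe_lagrangeCuspForm [ℋ.HasDetPlusMinusOne] [CuspFormClass F 𝒢 k]
    [ModularFormClass F' 𝒢 k'] (f : F) (g : F') (m : ℕ) :
    ⇑(lagrangeCuspForm ℋ f g m) = lagrangeFun ℋ f g m := rfl

open Classical in
/-- The discriminant factor `D_g = ∏_{q ≠ 1} (g - g_q)`. -/
def discFun [SlashInvariantFormClass F' 𝒢 k'] (g : F') : ℍ → ℂ :=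
  ∏ q ∈ (univ : Finset 𝒬).erase ((1 : ℋ) : 𝒬), (⇑g - quotientFunc g q)

open Classical in
theorem discFun_apply [SlashInvariantFormClass F' 𝒢 k'] (g : F') (τ : ℍ) :
    discFun ℋ g τ = ∏ q ∈ (univ : Finset 𝒬).erase ((1 : ℋ) : 𝒬), (g τ - quotientFunc g q τ) := by
  simp [discFun, Finset.prod_apply]

theorem mdiff_discFun [ModularFormClass F' 𝒢 k'] (g : F') : MDiff (discFun ℋ g) :=
  MDifferentiable.prod fun q _ => (ModularFormClass.holo g).sub (mdiff_quotientFunc g q)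

/-- `D_g` is not identically zero as soon as `g` is not fixed by any element of `ℋ \ 𝒢`. -/
theorem discFun_ne_zero [ModularFormClass F' 𝒢 k'] (g : F')
    (hg : ∀ h ∈ ℋ, h ∉ 𝒢 → (⇑g) ∣[k'] h ≠ ⇑g) : discFun ℋ g ≠ 0 := by
  classical
  intro h0
  rw [discFun, UpperHalfPlane.prod_eq_zero_iff
    (fun q _ => (ModularFormClass.holo g).sub (mdiff_quotientFunc g q))] at h0
  obtain ⟨q, hq, hq0⟩ := h0
  induction q using Quotient.inductionOn with
  | h r =>
    have hne : (r : 𝒬) ≠ ((1 : ℋ) : 𝒬) := (mem_erase.mp hq).1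
    have hr : (r : GL (Fin 2) ℝ)⁻¹ ∉ 𝒢 := by
      intro hmem
      apply hne
      rw [QuotientGroup.eq, Subgroup.mem_subgroupOf]
      simpa using hmem
    refine hg _ (ℋ.inv_mem r.2) hr ?_
    have : quotientFunc g (r : 𝒬) = (⇑g) ∣[k'] (r : GL (Fin 2) ℝ)⁻¹ := rfl
    rw [← this]
    exact (sub_eq_zero.mp hq0).symm

/-- **Lagrange relation**: `f * D_g = ∑_{m < μ} (-1)^m h_m(f, g) g^(μ-1-m)`. -/
theorem lagrange_relation [SlashInvariantFormClass F 𝒢 k] [SlashInvariantFormClass F' 𝒢 k']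
    (f : F) (g : F') (τ : ℍ) :
    f τ * discFun ℋ g τ =
      ∑ m ∈ range (Nat.card 𝒬),
        (-1) ^ m * lagrangeFun ℋ f g m τ * g τ ^ (Nat.card 𝒬 - 1 - m) := by
  classical
  have h := lagrange_eval (fun q : 𝒬 => quotientFunc f q τ) (fun q : 𝒬 => quotientFunc g q τ)
    ((1 : ℋ) : 𝒬)
  simp only [quotientFunc_one] at h
  rw [Nat.card_eq_fintype_card, discFun_apply]
  simp only [lagrangeFun_apply]
  convert h using 2

/-- **Discriminant relation**: `D_g = ∑_{m < μ} (-1)^m (μ - m) e_m(g) g^(μ-1-m)`. -/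
theorem disc_relation [SlashInvariantFormClass F' 𝒢 k'] (g : F') (τ : ℍ) :
    discFun ℋ g τ =
      ∑ m ∈ range (Nat.card 𝒬),
        (-1) ^ m * ((Nat.card 𝒬 - m : ℕ) : ℂ) * esymmFun ℋ g m τ *
          g τ ^ (Nat.card 𝒬 - 1 - m) := by
  classical
  have h := disc_eval (fun q : 𝒬 => quotientFunc g q τ) ((1 : ℋ) : 𝒬)
  simp only [quotientFunc_one] at h
  rw [Nat.card_eq_fintype_card, discFun_apply]
  simp only [esymmFun_apply]
  convert h using 2

end Lagrange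

end

end Fermat.Agent.S23.H16
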